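/-
Program A (S42 / S29), AJ-core skeleton leaf 13 (`LeafAN5` of `S42/H96/Skeleton.lean`):
root data over `ℂ` are stable under multiplication by `p`-th powers.

If `g · evC(b)^p = evC(c)`, `G^p = Θ_ℂ(c)` with character `ζ_p^ψ`, and `g = g' · w^p` with
`w = evC(P) / evC(Q) ≠ 0`, then `g' · evC(b·P)^p = evC(c·Q^p)` and `G · Θ_ℂ(Q)` is a holomorphic
`p`-th root of `Θ_ℂ(c·Q^p)` with the same character (`Θ_ℂ(Q)` is `Γ₀(N)`-invariant).
-/
import Mathlib
import Fermat.Agent.S42.H96.Skeleton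
import Fermat.Agent.S29.H37.FieldC

set_option autoImplicit false

open UpperHalfPlane CongruenceSubgroup ModularCurve
open Fermat.Agent.S24
open scoped MatrixGroups Manifold

noncomputable section

namespace Fermat.Agent.S42.H27

open Fermat.Agent.S42.H96

/-- The two copies of `evC` (skeleton / helper37) agree definitionally. -/
theorem evC_eq_evFC (N : ℕ) : evC N = Fermat.Agent.S29.H37.evFC N := rfl

/-- The two copies of `ThetaC` (skeleton / helper37) agree definitionally. -/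
theorem thetaC_eq_thetaC (N : ℕ) : ThetaC N = Fermat.Agent.S29.H37.ThetaC N := rfl

/-- **Leaf 13 (`LeafAN5`)**: root data over `ℂ` are stable under multiplication by `p`-th
powers of nonzero elements of `M_ℂ`. -/
theorem leafAN5 (N p : ℕ) [NeZero N] : LeafAN5 N p := by
  rintro ψ g g' w ⟨c, b, G, hb, hgb, hG, hGp, hGc⟩ hw hgw
  obtain ⟨P, Q, hQ, hwPQ⟩ := Fermat.Agent.S29.H37.evFC_frac N w
  rw [← evC_eq_evFC] at hQ hwPQ
  have hP : evC N P ≠ 0 := by
    intro h0
    apply hw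
    rw [hwPQ, h0, zero_div]
  refine ⟨c * Q ^ p, b * P, fun τ => G τ * ThetaC N Q τ, ?_, ?_, ?_, fun τ => ?_, fun γ τ => ?_⟩
  · rw [map_mul]
    exact mul_ne_zero hb hP
  · have hPw : evC N P = w * evC N Q := by
      rw [hwPQ, div_mul_cancel₀ _ hQ]
    rw [map_mul, map_mul, map_pow, ← hgb, hgw, hPw]
    ring
  · have h1 : MDiff (ThetaC N Q) := by
      rw [thetaC_eq_thetaC]
      exact Fermat.Agent.S29.H37.mdiff_ThetaC N Q
    exact hG.mul h1
  · rw [mul_pow, hGp τ, map_mul, map_pow]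
    rfl
  · have h1 : ThetaC N Q ((γ : SL(2, ℤ)) • τ) = ThetaC N Q τ := by
      rw [thetaC_eq_thetaC]
      exact Fermat.Agent.S29.H37.ThetaC_smul_of_mem N γ.2 Q τ
    show G ((γ : SL(2, ℤ)) • τ) * ThetaC N Q ((γ : SL(2, ℤ)) • τ) = chiOf p ψ γ * (G τ * ThetaC N Q τ)
    rw [hGc γ τ, h1, mul_assoc]

end Fermat.Agent.S42.H27
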